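import Mathlib
import Fermat.Agent.S05.ValF1

set_option autoImplicit false

/-!
# `S13`, local analysis at `2`, layer 1: `x`-only formulas and integrality of torsion

We work with `S05.KummerData` for the *minimal* model at `2`: the coefficient `β` is not integral,
only `4 * β` is.  All statements are about an arbitrary valuation `v`.
-/

namespace Fermat.Agent.S13.LocalTwo

open Fermat.Agent.S05

section field
variable {K Γ₀ : Type*} [Field K] [LinearOrderedCommGroupWithZero Γ₀] (v : Valuation K Γ₀)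

/-- doubling step in the kernel of reduction (`b = 4β`) -/
lemma f1_dbl' {b γ x X2 : K} (hb : v b ≤ 1) (hγ : v γ ≤ 1) (hx : 1 < v x)
    (h : X2 * (x * (4 * x ^ 2 + b * x + 4 * γ)) = (x ^ 2 - γ) ^ 2) :
    X2 ≠ 0 ∧ v (X2⁻¹ - 4 * x⁻¹) ≤ v x⁻¹ ^ 2 := by
  have hx0 : x ≠ 0 := ne_zero_of_one_lt v hx
  have hω1 : v x⁻¹ < 1 := val_inv_lt_one v hx
  obtain ⟨ω, hω⟩ : ∃ ω, ω = x⁻¹ := ⟨_, rfl⟩
  rw [← hω] at hω1 ⊢
  have hωi : ω ∈ v.integer := mem_int v hω1.le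
  have hbi : b ∈ v.integer := mem_int v hb
  have hγi : γ ∈ v.integer := mem_int v hγ
  have hu : v (1 - γ * ω ^ 2) = 1 := by
    apply v.map_one_sub_of_lt
    rw [map_mul, map_pow]
    calc v γ * v ω ^ 2 ≤ 1 * v ω ^ 2 := by gcongr
      _ = v ω ^ 2 := one_mul _
      _ < 1 := pow_lt_one₀ zero_le hω1 (by norm_num)
  have hu0 : 1 - γ * ω ^ 2 ≠ 0 := by
    intro h0; rw [h0] at hu; simp at hu
  have hne : x ^ 2 - γ ≠ 0 := by
    have : x ^ 2 - γ = x ^ 2 * (1 - γ * ω ^ 2) := by rw [hω]; field_simp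
    rw [this]; exact mul_ne_zero (pow_ne_zero 2 hx0) hu0
  have hX2 : X2 ≠ 0 := by
    intro h0; rw [h0, zero_mul] at h; exact (pow_ne_zero 2 hne) h.symm
  have hden : x * (4 * x ^ 2 + b * x + 4 * γ) ≠ 0 := by
    intro h0; rw [h0, mul_zero] at h; exact (pow_ne_zero 2 hne) h.symm
  refine ⟨hX2, ?_⟩
  have key : (X2⁻¹ - 4 * ω) * (1 - γ * ω ^ 2) ^ 2 =
      ω ^ 2 * (b + 12 * γ * ω - 4 * γ ^ 2 * ω ^ 3) := by
    have h1 : X2⁻¹ = x * (4 * x ^ 2 + b * x + 4 * γ) / (x ^ 2 - γ) ^ 2 := by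
      rw [← h, eq_div_iff (mul_ne_zero hX2 hden), ← mul_assoc, inv_mul_cancel₀ hX2, one_mul]
    rw [h1, hω]; field_simp; ring
  have h2 : v (X2⁻¹ - 4 * ω) = v (ω ^ 2 * (b + 12 * γ * ω - 4 * γ ^ 2 * ω ^ 3)) := by
    rw [← key, map_mul, map_pow, hu]; simp
  rw [h2, map_mul, map_pow]
  have hint : v (b + 12 * γ * ω - 4 * γ ^ 2 * ω ^ 3) ≤ 1 := by
    clear h2 key hne hu0 hu hden hX2 h hω
    exact le_one_of_mem v (by aesop)
  calc v ω ^ 2 * v (b + 12 * γ * ω - 4 * γ ^ 2 * ω ^ 3) ≤ v ω ^ 2 * 1 := by gcongr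
    _ = v ω ^ 2 := by simp

/-- chord step in the kernel of reduction (`b = 4β`) -/
lemma f1_step' {b γ xP xQ Xp Xm : K} (hb : v b ≤ 1) (hγ : v γ ≤ 1)
    (hQ : 1 < v xQ) (hP : 1 < v xP) (hXm : Xm ≠ 0) (hne : xP ≠ xQ)
    (hprod : Xp * Xm * (xP - xQ) ^ 2 = (xP * xQ - γ) ^ 2)
    (hsum : (Xp + Xm) * (xP - xQ) ^ 2 =
      2 * (xP + xQ) * (xP * xQ + γ) + b * (xP * xQ)) :
    Xp ≠ 0 ∧ v (Xp⁻¹ + Xm⁻¹ - 2 * (xQ⁻¹ + xP⁻¹)) ≤ v xP⁻¹ * v xQ⁻¹ := by
  have hP0 : xP ≠ 0 := ne_zero_of_one_lt v hP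
  have hQ0 : xQ ≠ 0 := ne_zero_of_one_lt v hQ
  have hw1 : v xP⁻¹ < 1 := val_inv_lt_one v hP
  have hω1 : v xQ⁻¹ < 1 := val_inv_lt_one v hQ
  generalize hω : xQ⁻¹ = ω at hω1 ⊢
  generalize hw : xP⁻¹ = w at hw1 ⊢
  have hωi : ω ∈ v.integer := mem_int v hω1.le
  have hwi : w ∈ v.integer := mem_int v hw1.le
  have hbi : b ∈ v.integer := mem_int v hb
  have hγi : γ ∈ v.integer := mem_int v hγ
  have hu : v (1 - γ * w * ω) = 1 := by
    apply v.map_one_sub_of_lt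
    rw [map_mul, map_mul]
    calc v γ * v w * v ω ≤ 1 * 1 * v ω := by gcongr
      _ = v ω := by simp
      _ < 1 := hω1
  have hu0 : 1 - γ * w * ω ≠ 0 := by
    intro h0; rw [h0] at hu; simp at hu
  have hδ : xP - xQ ≠ 0 := sub_ne_zero.mpr hne
  have hne2 : xP * xQ - γ ≠ 0 := by
    have : xP * xQ - γ = xP * xQ * (1 - γ * w * ω) := by rw [← hω, ← hw]; field_simp
    rw [this]; exact mul_ne_zero (mul_ne_zero hP0 hQ0) hu0
  have hXp : Xp ≠ 0 := by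
    intro h0; rw [h0, zero_mul, zero_mul] at hprod; exact (pow_ne_zero 2 hne2) hprod.symm
  refine ⟨hXp, ?_⟩
  have key : (Xp⁻¹ + Xm⁻¹ - 2 * (ω + w)) * (1 - γ * w * ω) ^ 2 =
      w * ω * (2 * (ω + w) * γ * (3 - γ * w * ω) + b) := by
    have h1 : Xp⁻¹ + Xm⁻¹ =
        (2 * (xP + xQ) * (xP * xQ + γ) + b * (xP * xQ)) / (xP * xQ - γ) ^ 2 := by
      rw [← hsum, ← hprod]; field_simp; ring
    rw [h1, ← hω, ← hw]; field_simp; ring
  have h2 : v (Xp⁻¹ + Xm⁻¹ - 2 * (ω + w)) =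
      v (w * ω * (2 * (ω + w) * γ * (3 - γ * w * ω) + b)) := by
    rw [← key, map_mul, map_pow, hu]; simp
  rw [h2, map_mul, map_mul]
  have hint : v (2 * (ω + w) * γ * (3 - γ * w * ω) + b) ≤ 1 := by
    clear h2 key hne2 hu0 hu hXp hprod hsum hω hw
    exact le_one_of_mem v (by aesop)
  calc v w * v ω * v (2 * (ω + w) * γ * (3 - γ * w * ω) + b) ≤ v w * v ω * 1 := by gcongr
    _ = v w * v ω := by simp

end field

section xonly
variable {G K : Type*} [AddCommGroup G] [Field K] (D : KummerData G K)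

/-- the `x`-only sum formula with `b = 4β` -/
lemma sumx {P Q : G} (hP : P ≠ 0) (hQ : Q ≠ 0) (h : D.x P ≠ D.x Q) :
    (D.x (P + Q) + D.x (P - Q)) * (D.x P - D.x Q) ^ 2 =
      2 * (D.x P + D.x Q) * (D.x P * D.x Q + D.γ) + 4 * D.β * (D.x P * D.x Q) := by
  rw [D.sum_x hP hQ h]; ring

/-- the `x`-only duplication formula with `b = 4β` -/
lemma dblx {P : G} (hP : P ≠ 0) (hPP : P + P ≠ 0) :
    D.x (P + P) * (D.x P * (4 * D.x P ^ 2 + 4 * D.β * D.x P + 4 * D.γ)) =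
      (D.x P ^ 2 - D.γ) ^ 2 := by
  have hy : D.y P ≠ 0 := by
    intro hy
    apply hPP
    have : P = -P := D.inj P (-P) hP (neg_ne_zero.mpr hP) (D.x_neg P).symm
      (by rw [D.y_neg, hy, neg_zero])
    exact add_eq_zero_iff_eq_neg.mpr this
  have h := D.dbl_x P hP hy
  have e := D.eqn P hP
  rw [← h]
  linear_combination (-4 * D.x (P + P)) * e

/-- a nonzero point with `x = 0` is `2`-torsion -/
lemma two_nsmul_eq_zero_of_x_eq_zero (hγ0 : D.γ ≠ 0) {P : G} (hP : P ≠ 0) (hx : D.x P = 0) :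
    P + P = 0 := by
  by_contra hPP
  have h := dblx D hP hPP
  rw [hx] at h
  have : (D.γ) ^ 2 = 0 := by linear_combination -h
  exact hγ0 ((pow_eq_zero_iff (two_ne_zero)).mp this)

end xonly

section torsion
variable {G K Γ₀ : Type*} [AddCommGroup G] [Field K] [LinearOrderedCommGroupWithZero Γ₀]
  (D : KummerData G K) (v : Valuation K Γ₀)

lemma two_nsmul_ne_zero {p : ℕ} (hp : p.Prime) (hp2 : p ≠ 2) {T : G} (hT0 : T ≠ 0)
    (hT : p • T = 0) : T + T ≠ 0 := by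
  have hp3 : 3 ≤ p := by have := hp.two_le; omega
  have := nsmul_ne_zero_of_lt hp hT0 hT (k := 2) (by norm_num) (by omega)
  rwa [two_nsmul] at this

/-- (F3) a nonzero `p`-torsion point has integral `x`-coordinate (`p` odd, a unit for `v`);
only `4β` and `γ` need to be integral. -/
theorem val_x_le_one (hb : v (4 * D.β) ≤ 1) (hγ : v D.γ ≤ 1) {p : ℕ} (hp : p.Prime)
    (hp2 : p ≠ 2) (hpv : v (p : K) = 1) {T : G} (hT0 : T ≠ 0) (hT : p • T = 0) :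
    v (D.x T) ≤ 1 := by
  by_contra hcon
  rw [not_le] at hcon
  have hp3 : 3 ≤ p := by have := hp.two_le; omega
  have hx0 : D.x T ≠ 0 := ne_zero_of_one_lt v hcon
  have hω1 : v (D.x T)⁻¹ < 1 := val_inv_lt_one v hcon
  have hω0 : (D.x T)⁻¹ ≠ 0 := inv_ne_zero hx0
  have hTT : T + T ≠ 0 := two_nsmul_ne_zero hp hp2 hT0 hT
  have hdbl := f1_dbl' v hb hγ hcon (dblx D hT0 hTT)
  generalize hω : (D.x T)⁻¹ = ω at hω1 hω0 hdbl
  have hωpos : 0 < v ω := v.pos_iff.mpr hω0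
  have hsq : v ω ^ 2 ≤ v ω := by
    calc v ω ^ 2 = v ω * v ω := sq _
      _ ≤ v ω * 1 := by gcongr
      _ = v ω := mul_one _
  have key : ∀ k : ℕ, 1 ≤ k → k + 1 ≤ p - 1 →
      (D.x (k • T) ≠ 0 ∧ v ((D.x (k • T))⁻¹ - (k : K) ^ 2 * ω) ≤ v ω ^ 2) ∧
      (D.x ((k + 1) • T) ≠ 0 ∧
        v ((D.x ((k + 1) • T))⁻¹ - ((k + 1 : ℕ) : K) ^ 2 * ω) ≤ v ω ^ 2) := by
    intro k hk
    induction k, hk using Nat.le_induction with
    | base =>
      intro _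
      refine ⟨⟨by simpa using hx0, by simp [hω]⟩, ?_⟩
      have e2 : (1 + 1) • T = T + T := by rw [one_add_one_eq_two, two_nsmul]
      rw [e2]
      refine ⟨hdbl.1, ?_⟩
      have : (((1 + 1 : ℕ) : K)) ^ 2 = 4 := by norm_num
      rw [this]; exact hdbl.2
    | succ k hk ih =>
      intro hk2
      obtain ⟨⟨hk0, hkv⟩, ⟨hk10, hk1v⟩⟩ := ih (by omega)
      refine ⟨⟨hk10, hk1v⟩, ?_⟩
      have hP0 : (k + 1) • T ≠ 0 := nsmul_ne_zero_of_lt hp hT0 hT (by omega) (by omega)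
      have hne : D.x ((k + 1) • T) ≠ D.x T := by
        have := x_nsmul_ne D hp hT0 hT (i := 1) (j := k + 1) (by norm_num) (by omega) (by omega)
        simpa using this
      have hwk1 : v (D.x ((k + 1) • T))⁻¹ ≤ v ω := by
        have : (D.x ((k + 1) • T))⁻¹ =
            ((D.x ((k + 1) • T))⁻¹ - ((k + 1 : ℕ) : K) ^ 2 * ω) + ((k + 1 : ℕ) : K) ^ 2 * ω := by
          ring
        rw [this]
        refine v.map_add_le (le_trans hk1v hsq) ?_
        rw [map_mul, map_pow]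
        calc v ((k + 1 : ℕ) : K) ^ 2 * v ω ≤ 1 ^ 2 * v ω := by
              gcongr; exact val_natCast_le_one v _
          _ = v ω := by simp
      have hP1 : 1 < v (D.x ((k + 1) • T)) :=
        (v.one_lt_val_iff hk10).mpr (lt_of_le_of_lt hwk1 hω1)
      have hsub : (k + 1) • T - T = k • T := by rw [succ_nsmul]; abel
      have hadd : (k + 1) • T + T = (k + 1 + 1) • T := (succ_nsmul T (k + 1)).symm
      have hs := f1_step' v hb hγ hcon hP1 (Xm := D.x ((k + 1) • T - T))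
        (Xp := D.x ((k + 1) • T + T)) (by rw [hsub]; exact hk0) hne
        (D.prod_x hP0 hT0 hne) (sumx D hP0 hT0 hne)
      rw [hsub, hadd, hω] at hs
      refine ⟨hs.1, ?_⟩
      have hE : v ((D.x ((k + 1 + 1) • T))⁻¹ + (D.x (k • T))⁻¹ -
          2 * (ω + (D.x ((k + 1) • T))⁻¹)) ≤ v ω ^ 2 := by
        refine le_trans hs.2 ?_
        calc v (D.x ((k + 1) • T))⁻¹ * v ω ≤ v ω * v ω := by gcongr
          _ = v ω ^ 2 := (sq _).symm
      have h2 : v (2 * ((D.x ((k + 1) • T))⁻¹ - ((k + 1 : ℕ) : K) ^ 2 * ω)) ≤ v ω ^ 2 := by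
        rw [map_mul]
        calc v 2 * v ((D.x ((k + 1) • T))⁻¹ - ((k + 1 : ℕ) : K) ^ 2 * ω) ≤ 1 * v ω ^ 2 := by
              gcongr
              exact_mod_cast val_natCast_le_one v 2
          _ = v ω ^ 2 := one_mul _
      have : (D.x ((k + 1 + 1) • T))⁻¹ - ((k + 1 + 1 : ℕ) : K) ^ 2 * ω =
          ((D.x ((k + 1 + 1) • T))⁻¹ + (D.x (k • T))⁻¹ - 2 * (ω + (D.x ((k + 1) • T))⁻¹))
          - ((D.x (k • T))⁻¹ - (k : K) ^ 2 * ω)
          + 2 * ((D.x ((k + 1) • T))⁻¹ - ((k + 1 : ℕ) : K) ^ 2 * ω) := by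
        push_cast; ring
      rw [this]
      exact v.map_add_le (v.map_sub_le hE hkv) h2
  -- final contradiction
  obtain ⟨k0, hk0⟩ : ∃ k0, p = 2 * k0 + 1 := by
    rcases hp.eq_two_or_odd' with h | h
    · exact absurd h hp2
    · exact h
  have hk01 : 1 ≤ k0 := by omega
  obtain ⟨⟨ha0, hav⟩, ⟨hb0, hbv⟩⟩ := key k0 hk01 (by omega)
  have hneg : (k0 + 1) • T = -(k0 • T) := by
    rw [eq_neg_iff_add_eq_zero, ← add_nsmul]
    have : k0 + 1 + k0 = p := by omega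
    rw [this]; exact hT
  rw [hneg, D.x_neg] at hbv
  have hpω : (p : K) * ω = ((D.x (k0 • T))⁻¹ - (k0 : K) ^ 2 * ω) -
      ((D.x (k0 • T))⁻¹ - ((k0 + 1 : ℕ) : K) ^ 2 * ω) := by
    rw [hk0]; push_cast; ring
  have h1 : v ((p : K) * ω) ≤ v ω ^ 2 := by
    rw [hpω]; exact v.map_sub_le hav hbv
  rw [map_mul, hpv, one_mul] at h1
  have h2 : v ω ^ 2 < v ω := by
    calc v ω ^ 2 = v ω * v ω := sq _
      _ < v ω * 1 := by
        exact mul_lt_mul_of_pos_left hω1 hωpos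
      _ = v ω := mul_one _
  exact absurd h1 (not_le.mpr h2)

end torsion

end Fermat.Agent.S13.LocalTwo
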