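import Mathlib
import Fermat.Agent.S13.LocalTwo.F3

set_option autoImplicit false

/-!
# `S13`, local analysis at `2`, layer 2: the valuation window of torsion points

For the minimal model at `2` (`4β` a unit, `γ` in the maximal ideal, residue characteristic `2`)
every nonzero `p`-torsion point `T` (`p` odd) satisfies `v γ < v (x T) ≤ 1`.
-/

namespace Fermat.Agent.S13.LocalTwo

open Fermat.Agent.S05

section
variable {G K Γ₀ : Type*} [AddCommGroup G] [Field K] [LinearOrderedCommGroupWithZero Γ₀]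

/-- the hypotheses of the `2`-adic analysis of the `p`-torsion -/
structure TwoAdic (D : KummerData G K) (v : Valuation K Γ₀) (p : ℕ) : Prop where
  h2 : v 2 < 1
  hb : v (4 * D.β) = 1
  hγ1 : v D.γ < 1
  hγ0 : D.γ ≠ 0
  hp : p.Prime
  hp2 : p ≠ 2
  hpv : v (p : K) = 1

variable {D : KummerData G K} {v : Valuation K Γ₀} {p : ℕ}

namespace TwoAdic

lemma h4 (H : TwoAdic D v p) : v 4 < 1 := by
  have : (4 : K) = 2 * 2 := by norm_num
  rw [this, map_mul]
  calc v 2 * v 2 ≤ v 2 * 1 := mul_le_mul' le_rfl H.h2.le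
    _ = v 2 := mul_one _
    _ < 1 := H.h2

lemma hγpos (H : TwoAdic D v p) : 0 < v D.γ :=
  zero_lt_iff.mpr ((Valuation.ne_zero_iff v).mpr H.hγ0)

lemma le_one (H : TwoAdic D v p) {T : G} (hT0 : T ≠ 0) (hT : p • T = 0) : v (D.x T) ≤ 1 :=
  val_x_le_one D v H.hb.le H.hγ1.le H.hp H.hp2 H.hpv hT0 hT

lemma nsmul_tors {T : G} (hT : p • T = 0) (k : ℕ) : p • (k • T) = 0 := by
  rw [smul_comm, hT, smul_zero]

lemma add_tors {P Q : G} (hP : p • P = 0) (hQ : p • Q = 0) : p • (P + Q) = 0 := by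
  rw [smul_add, hP, hQ, add_zero]

lemma sub_tors {P Q : G} (hP : p • P = 0) (hQ : p • Q = 0) : p • (P - Q) = 0 := by
  rw [smul_sub, hP, hQ, sub_zero]

/-- doubling a point with unit `x`-coordinate gives a unit `x`-coordinate -/
lemma val_dbl_eq_one (H : TwoAdic D v p) {S : G} (hS0 : S ≠ 0) (hSS : S + S ≠ 0)
    (hx : v (D.x S) = 1) : v (D.x (S + S)) = 1 := by
  have h := dblx D hS0 hSS
  have h1 : v (D.x S ^ 2 - D.γ) = 1 := by
    rw [v.map_sub_eq_of_lt_left (by rw [map_pow, hx, one_pow]; exact H.hγ1), map_pow, hx, one_pow]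
  have hbx : v (4 * D.β * D.x S) = 1 := by rw [map_mul, H.hb, hx, one_mul]
  have h4x : v (4 * D.x S ^ 2) < 1 := by
    rw [map_mul, map_pow, hx, one_pow, mul_one]; exact H.h4
  have h4γ : v (4 * D.γ) < 1 := by
    rw [map_mul]
    calc v 4 * v D.γ ≤ 1 * v D.γ := mul_le_mul' H.h4.le le_rfl
      _ = v D.γ := one_mul _
      _ < 1 := H.hγ1
  have h2 : v (4 * D.x S ^ 2 + 4 * D.β * D.x S + 4 * D.γ) = 1 := by
    have h3 : v (4 * D.x S ^ 2 + 4 * D.β * D.x S) = 1 := by
      rw [v.map_add_eq_of_lt_right (by rw [hbx]; exact h4x), hbx]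
    rw [v.map_add_eq_of_lt_left (by rw [h3]; exact h4γ), h3]
  have h5 := congrArg v h
  rw [map_mul, map_mul, hx, h2, map_pow, h1] at h5
  simpa using h5

/-- (C1) multiples of a torsion point with unit `x`-coordinate have unit `x`-coordinate -/
theorem val_nsmul_eq_one (H : TwoAdic D v p) {S : G} (hS0 : S ≠ 0) (hS : p • S = 0)
    (hx : v (D.x S) = 1) (k : ℕ) : k • S = 0 ∨ v (D.x (k • S)) = 1 := by
  have key : ∀ k : ℕ, (k • S = 0 ∨ v (D.x (k • S)) = 1) ∧
      ((k + 1) • S = 0 ∨ v (D.x ((k + 1) • S)) = 1) := by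
    intro k
    induction k with
    | zero =>
      refine ⟨Or.inl (zero_smul _ _), Or.inr ?_⟩
      rw [zero_add, one_smul]; exact hx
    | succ k ih =>
      obtain ⟨ih0, ih1⟩ := ih
      refine ⟨ih1, ?_⟩
      by_cases h2 : (k + 1 + 1) • S = 0
      · exact Or.inl h2
      right
      have hadd : (k + 1) • S + S = (k + 1 + 1) • S := (succ_nsmul S (k + 1)).symm
      have hsub : (k + 1) • S - S = k • S := by rw [succ_nsmul, add_sub_cancel_right]
      by_cases hP0 : (k + 1) • S = 0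
      · rw [← hadd, hP0, zero_add]; exact hx
      have h1 : v (D.x ((k + 1) • S)) = 1 := ih1.resolve_left hP0
      by_cases hxx : D.x ((k + 1) • S) = D.x S
      · rcases D.eq_or_eq_neg_of_x_eq hP0 hS0 hxx with h | h
        · rw [← hadd, h]
          refine val_dbl_eq_one H hS0 ?_ hx
          rw [← hadd, h] at h2; exact h2
        · exfalso; apply h2; rw [← hadd, h, neg_add_cancel]
      · have hk0 : k • S ≠ 0 := by
          intro h0
          apply hxx
          have : (k + 1) • S = S := by rw [succ_nsmul, h0, zero_add]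
          rw [this]
        have hpr := D.prod_x hP0 hS0 hxx
        rw [hadd, hsub] at hpr
        have hμ : v (D.x ((k + 1) • S) * D.x S - D.γ) = 1 := by
          have : v (D.x ((k + 1) • S) * D.x S) = 1 := by rw [map_mul, h1, hx, one_mul]
          rw [v.map_sub_eq_of_lt_left (by rw [this]; exact H.hγ1), this]
        have hδ : v (D.x ((k + 1) • S) - D.x S) ≤ 1 :=
          le_trans (v.map_sub _ _) (max_le h1.le hx.le)
        have ha : v (D.x ((k + 1 + 1) • S)) ≤ 1 := H.le_one h2 (nsmul_tors hS _)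
        have hb : v (D.x (k • S)) ≤ 1 := H.le_one hk0 (nsmul_tors hS _)
        have h5 := congrArg v hpr
        rw [map_mul, map_mul, map_pow, map_pow, hμ, one_pow] at h5
        by_contra hne
        have hlt : v (D.x ((k + 1 + 1) • S)) < 1 := lt_of_le_of_ne ha hne
        have hδ2 : v (D.x ((k + 1) • S) - D.x S) ^ 2 ≤ 1 := pow_le_one₀ zero_le hδ
        have h6 : v (D.x ((k + 1 + 1) • S)) * v (D.x (k • S)) *
            v (D.x ((k + 1) • S) - D.x S) ^ 2 ≤ v (D.x ((k + 1 + 1) • S)) * 1 * 1 :=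
          mul_le_mul' (mul_le_mul' le_rfl hb) hδ2
        rw [h5, mul_one, mul_one] at h6
        exact absurd h6 (not_le.mpr hlt)
  exact (key k).1

/-- (M) a nonzero `p`-torsion point is not `v`-adically close to the `2`-torsion point at the
node: `v γ < v (x T)`. -/
theorem gamma_lt (H : TwoAdic D v p) {T : G} (hT0 : T ≠ 0) (hT : p • T = 0) :
    v D.γ < v (D.x T) := by
  by_contra hcon
  rw [not_lt] at hcon
  have hn0 := H.hγpos
  have hTT : T + T ≠ 0 := two_nsmul_ne_zero H.hp H.hp2 hT0 hT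
  have h := dblx D hT0 hTT
  have hgg : v D.γ * v D.γ < v D.γ := by
    calc v D.γ * v D.γ < v D.γ * 1 := mul_lt_mul_of_pos_left H.hγ1 hn0
      _ = v D.γ := mul_one _
  have h1 : v (D.x T ^ 2 - D.γ) = v D.γ := by
    apply v.map_sub_eq_of_lt_right
    rw [map_pow, sq]
    exact lt_of_le_of_lt (mul_le_mul' hcon hcon) hgg
  have hd : v (4 * D.x T ^ 2 + 4 * D.β * D.x T + 4 * D.γ) ≤ v D.γ := by
    refine v.map_add_le (v.map_add_le ?_ ?_) ?_
    · rw [map_mul, map_pow, sq]
      calc v 4 * (v (D.x T) * v (D.x T)) ≤ 1 * (v D.γ * v D.γ) :=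
            mul_le_mul' H.h4.le (mul_le_mul' hcon hcon)
        _ = v D.γ * v D.γ := one_mul _
        _ ≤ v D.γ := hgg.le
    · rw [map_mul, H.hb, one_mul]; exact hcon
    · rw [map_mul]
      calc v 4 * v D.γ ≤ 1 * v D.γ := mul_le_mul' H.h4.le le_rfl
        _ = v D.γ := one_mul _
  have h5 := congrArg v h
  rw [map_mul, map_mul, map_pow, h1] at h5
  have hden : v (D.x T) * v (4 * D.x T ^ 2 + 4 * D.β * D.x T + 4 * D.γ) ≤ v D.γ ^ 2 := by
    calc v (D.x T) * v (4 * D.x T ^ 2 + 4 * D.β * D.x T + 4 * D.γ) ≤ v D.γ * v D.γ :=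
          mul_le_mul' hcon hd
      _ = v D.γ ^ 2 := (sq _).symm
  have hden0 : 0 < v (D.x T) * v (4 * D.x T ^ 2 + 4 * D.β * D.x T + 4 * D.γ) := by
    rcases eq_or_lt_of_le (zero_le (a := v (D.x T) *
      v (4 * D.x T ^ 2 + 4 * D.β * D.x T + 4 * D.γ))) with h0 | h0
    · rw [← h0, mul_zero] at h5
      exact absurd h5.symm (pow_ne_zero 2 hn0.ne')
    · exact h0
  have hx2 : 1 ≤ v (D.x (T + T)) := by
    by_contra hlt
    rw [not_le] at hlt
    have : v (D.x (T + T)) * (v (D.x T) * v (4 * D.x T ^ 2 + 4 * D.β * D.x T + 4 * D.γ)) <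
        v (D.x T) * v (4 * D.x T ^ 2 + 4 * D.β * D.x T + 4 * D.γ) :=
      mul_lt_of_lt_one_left hden0 hlt
    rw [h5] at this
    exact absurd hden (not_le.mpr this)
  have hTT' : p • (T + T) = 0 := add_tors hT hT
  have hx2' : v (D.x (T + T)) = 1 := le_antisymm (H.le_one hTT hTT') hx2
  obtain ⟨k0, hk0⟩ : ∃ k0, p = 2 * k0 + 1 := by
    rcases H.hp.eq_two_or_odd' with h | h
    · exact absurd h H.hp2
    · exact h
  have hmul : (k0 + 1) • (T + T) = T := by
    rw [← two_nsmul, ← mul_nsmul]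
    have : 2 * (k0 + 1) = p + 1 := by omega
    rw [this, succ_nsmul, hT, zero_add]
  rcases val_nsmul_eq_one H hTT hTT' hx2' (k0 + 1) with h0 | h0
  · rw [hmul] at h0; exact hT0 h0
  · rw [hmul] at h0
    rw [h0] at hcon
    exact absurd H.hγ1 (not_lt.mpr hcon)

end TwoAdic

end

end Fermat.Agent.S13.LocalTwo
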