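import Mathlib
import Fermat.Agent.S05.ValNode
import Fermat.Agent.S13.LocalTwo.Window

set_option autoImplicit false

/-!
# `S13`, local analysis at `2`, layer 3: the addition rule for valuations of torsion points

On the `p`-torsion (where `v γ < v (x T) ≤ 1`) the valuations of the `x`-coordinates obey the
same addition rule as in `S05.ValNode` (no clipping needed), although `v 2 < 1`.
-/

namespace Fermat.Agent.S13.LocalTwo

open Fermat.Agent.S05 Fermat.Agent.S05.ValNode

section core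
variable {K Γ₀ : Type*} [Field K] [LinearOrderedCommGroupWithZero Γ₀] (v : Valuation K Γ₀)

/-- pair rule, core case: `v x2 ≤ v x1` and `v r2 ≤ v r1`. -/
theorem pair_core {b γ x1 x2 r1 r2 : K} (h2 : v 2 < 1) (hb : v b = 1) (hγ1 : v γ < 1)
    (hγ0 : γ ≠ 0) (hne : x1 ≠ x2)
    (hM : r1 * r2 * (x1 - x2) ^ 2 = (x1 * x2 - γ) ^ 2)
    (hS : (r1 + r2) * (x1 - x2) ^ 2 = 2 * (x1 + x2) * (x1 * x2 + γ) + b * (x1 * x2))
    (w1 : v γ < v x1) (w1' : v x1 ≤ 1) (w2 : v γ < v x2)
    (wr1' : v r1 ≤ 1) (wr2 : v γ < v r2) (wr2' : v r2 ≤ 1)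
    (hab : v x2 ≤ v x1) (hr : v r2 ≤ v r1) :
    v r1 * v x1 = v x2 ∧
      (v r2 = v x1 * v x2 ∨ v r2 * (v x1 * v x2) = v γ ^ 2) := by
  have hn0 : 0 < v γ := zero_lt_iff.mpr ((Valuation.ne_zero_iff v).mpr hγ0)
  have ha0 : 0 < v x1 := lt_trans hn0 w1
  have hb0 : 0 < v x2 := lt_trans hn0 w2
  have hR20 : 0 < v r2 := lt_trans hn0 wr2
  have hR10 : 0 < v r1 := lt_of_lt_of_le hR20 hr
  have hd0 : 0 < v (x1 - x2) :=
    zero_lt_iff.mpr ((Valuation.ne_zero_iff v).mpr (sub_ne_zero.mpr hne))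
  -- the sum formula: the term `b x1 x2` dominates
  have ht3 : v (b * (x1 * x2)) = v x1 * v x2 := by rw [map_mul, map_mul, hb, one_mul]
  have ht12 : v (2 * (x1 + x2) * (x1 * x2 + γ)) < v x1 * v x2 := by
    have hs : v (x1 + x2) ≤ v x1 := v.map_add_le le_rfl hab
    rw [map_mul, map_mul]
    rcases le_or_gt (v γ) (v x1 * v x2) with hc | hc
    · have hp : v (x1 * x2 + γ) ≤ v x1 * v x2 := v.map_add_le (by rw [map_mul]) hc
      calc v 2 * v (x1 + x2) * v (x1 * x2 + γ) ≤ v 2 * 1 * (v x1 * v x2) :=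
            mul_le_mul' (mul_le_mul' le_rfl (hs.trans w1')) hp
        _ = v 2 * (v x1 * v x2) := by rw [mul_one]
        _ < 1 * (v x1 * v x2) := mul_lt_mul_of_pos_right h2 (mul_pos ha0 hb0)
        _ = v x1 * v x2 := one_mul _
    · have hp : v (x1 * x2 + γ) ≤ v γ := v.map_add_le (by rw [map_mul]; exact hc.le) le_rfl
      calc v 2 * v (x1 + x2) * v (x1 * x2 + γ) ≤ 1 * v x1 * v γ :=
            mul_le_mul' (mul_le_mul' h2.le hs) hp
        _ = v x1 * v γ := by rw [one_mul]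
        _ < v x1 * v x2 := mul_lt_mul_of_pos_left w2 ha0
  have hSv : v (r1 + r2) * v (x1 - x2) ^ 2 = v x1 * v x2 := by
    rw [← map_pow, ← map_mul, hS, v.map_add_eq_of_lt_right (by rw [ht3]; exact ht12), ht3]
  have hMv : v r1 * v r2 * v (x1 - x2) ^ 2 = v (x1 * x2 - γ) ^ 2 := by
    rw [← map_pow, ← map_mul, ← map_mul, hM, map_pow]
  have hSgle : v (r1 + r2) ≤ v r1 := v.map_add_le le_rfl hr
  set a := v x1 with ha
  set c := v x2 with hc
  set n := v γ with hn
  set R1 := v r1 with hR1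
  set R2 := v r2 with hR2
  set Sg := v (r1 + r2) with hSg
  set δ := v (x1 - x2) with hδ
  have hx12 : v (x1 * x2) = a * c := by rw [map_mul]
  rcases lt_or_eq_of_le hab with hlt | heq
  · -- `c < a`
    have hδa : δ = a := by
      rw [hδ]; exact v.map_sub_eq_of_lt_left hlt
    rw [hδa] at hSv hMv
    have hSga : Sg * a = c := by
      have : Sg * a * a = c * a := by rw [mul_assoc, ← sq, hSv, mul_comm]
      exact mul_right_cancel₀ ha0.ne' this
    -- `R2 < R1` or (`R1 = R2`, only possible if `a = 1`)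
    rcases lt_trichotomy (a * c) n with hac | hac | hac
    · -- `a c < n`
      have hμ : v (x1 * x2 - γ) = n := by
        rw [hn]; exact v.map_sub_eq_of_lt_right (by rw [hx12]; exact hac)
      rw [hμ] at hMv
      have hne' : R2 ≠ R1 := by
        intro he
        have h1 : (R1 * a) ^ 2 = n ^ 2 := by rw [← hMv, he]; simp only [sq]; ac_rfl
        have h2' : R1 * a = n := by
          rcases lt_trichotomy (R1 * a) n with h | h | h
          · exact absurd h1 (ne_of_lt (pow_lt_pow_left₀ h zero_le (by norm_num)))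
          · exact h
          · exact absurd h1.symm (ne_of_lt (pow_lt_pow_left₀ h zero_le (by norm_num)))
        have : c ≤ n := by rw [← hSga, ← h2']; exact mul_le_mul' hSgle le_rfl
        exact absurd w2 (not_lt.mpr this)
      have hlt' : R2 < R1 := lt_of_le_of_ne hr hne'
      have hSg1 : Sg = R1 := by rw [hSg]; exact v.map_add_eq_of_lt_left hlt'
      rw [hSg1] at hSga
      refine ⟨hSga, Or.inr ?_⟩
      calc R2 * (a * c) = R2 * (a * (R1 * a)) := by rw [hSga]
        _ = R1 * R2 * a ^ 2 := by simp only [sq]; ac_rfl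
        _ = n ^ 2 := hMv
    · -- `a c = n` : impossible
      exfalso
      have hμ : v (x1 * x2 - γ) ≤ n := by
        refine le_trans (v.map_sub _ _) (max_le ?_ le_rfl)
        rw [hx12, hac]
      have hM' : R1 * R2 * a ^ 2 ≤ n ^ 2 := by
        rw [hMv]; exact pow_le_pow_left₀ zero_le hμ 2
      rcases eq_or_lt_of_le hr with he | hlt'
      · -- `R1 = R2`
        have h1 : (R1 * a) ^ 2 ≤ n ^ 2 := by
          have : (R1 * a) ^ 2 = R1 * R2 * a ^ 2 := by rw [he]; simp only [sq]; ac_rfl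
          rw [this]; exact hM'
        have h2' : R1 * a ≤ n := by
          by_contra h
          rw [not_le] at h
          exact absurd h1 (not_le.mpr (pow_lt_pow_left₀ h zero_le (by norm_num)))
        have : c ≤ n := by rw [← hSga]; exact le_trans (mul_le_mul' hSgle le_rfl) h2'
        exact absurd w2 (not_lt.mpr this)
      · have hSg1 : Sg = R1 := by rw [hSg]; exact v.map_add_eq_of_lt_left hlt'
        rw [hSg1] at hSga
        have h3 : R2 * (a * c) * (R1 * a) ≤ n * (a * c) * (R1 * a) := by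
          have : R2 * (a * c) * (R1 * a) = R1 * R2 * a ^ 2 * c := by simp only [sq]; ac_rfl
          rw [this]
          calc R1 * R2 * a ^ 2 * c ≤ n ^ 2 * c := mul_le_mul' hM' le_rfl
            _ = n * (a * c) * (R1 * a) := by rw [hSga, hac, sq]
        have h4 : R2 ≤ n := by
          have hpos : 0 < a * c * (R1 * a) := mul_pos (mul_pos ha0 hb0) (mul_pos hR10 ha0)
          have h5 : R2 * (a * c * (R1 * a)) ≤ n * (a * c * (R1 * a)) := by
            rw [← mul_assoc R2, ← mul_assoc n]; exact h3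
          exact le_of_mul_le_mul_right h5 hpos
        exact absurd wr2 (not_lt.mpr h4)
    · -- `n < a c`
      have hμ : v (x1 * x2 - γ) = a * c := by
        rw [← hx12]; exact v.map_sub_eq_of_lt_left (by rw [hx12]; exact hac)
      rw [hμ] at hMv
      have hRR : R1 * R2 = c * c := by
        have : R1 * R2 * a ^ 2 = c * c * a ^ 2 := by rw [hMv]; simp only [sq]; ac_rfl
        exact mul_right_cancel₀ (pow_ne_zero 2 ha0.ne') this
      rcases eq_or_lt_of_le hr with he | hlt'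
      · -- `R1 = R2 = c`, forces `a = 1`
        have hR1c : R1 = c := by
          have h1 : R1 ^ 2 = c ^ 2 := by rw [sq, sq, ← hRR, he]
          rcases lt_trichotomy R1 c with h | h | h
          · exact absurd h1 (ne_of_lt (pow_lt_pow_left₀ h zero_le (by norm_num)))
          · exact h
          · exact absurd h1.symm (ne_of_lt (pow_lt_pow_left₀ h zero_le (by norm_num)))
        have ha1 : a = 1 := by
          by_contra hne1
          have hlt1 : a < 1 := lt_of_le_of_ne w1' hne1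
          have : c < c := by
            calc c = Sg * a := hSga.symm
              _ ≤ R1 * a := mul_le_mul' hSgle le_rfl
              _ = c * a := by rw [hR1c]
              _ < c * 1 := mul_lt_mul_of_pos_left hlt1 hb0
              _ = c := mul_one c
          exact lt_irrefl _ this
        refine ⟨by rw [hR1c, ha1, mul_one], Or.inl ?_⟩
        rw [he, hR1c, ha1, one_mul]
      · have hSg1 : Sg = R1 := by rw [hSg]; exact v.map_add_eq_of_lt_left hlt'
        rw [hSg1] at hSga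
        refine ⟨hSga, Or.inl ?_⟩
        have : R1 * R2 = R1 * (a * c) := by
          rw [hRR]
          calc c * c = (R1 * a) * c := by rw [hSga]
            _ = R1 * (a * c) := mul_assoc _ _ _
        exact mul_left_cancel₀ hR10.ne' this
  · -- `c = a`
    have hca : c = a := heq
    have hδle : δ ≤ a := by
      rw [hδ]; exact le_trans (v.map_sub _ _) (max_le le_rfl hab)
    have hSg1' : Sg ≤ 1 := le_trans hSgle wr1'
    have hδa : δ = a := by
      apply le_antisymm hδle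
      by_contra h
      rw [not_le] at h
      have h1 : δ ^ 2 < a ^ 2 := pow_lt_pow_left₀ h zero_le (by norm_num)
      have h2' : Sg * δ ^ 2 ≤ 1 * δ ^ 2 := mul_le_mul' hSg1' le_rfl
      rw [hSv, one_mul, hca, ← sq] at h2'
      exact absurd h2' (not_le.mpr h1)
    rw [hδa] at hSv hMv
    have hSgone : Sg = 1 := by
      have : Sg * a ^ 2 = 1 * a ^ 2 := by rw [hSv, hca, one_mul, sq]
      exact mul_right_cancel₀ (pow_ne_zero 2 ha0.ne') this
    have hR1one : R1 = 1 := le_antisymm wr1' (by rw [← hSgone]; exact hSgle)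
    rw [hR1one, one_mul] at hMv
    refine ⟨by rw [hR1one, one_mul, hca], ?_⟩
    rcases lt_trichotomy (a * c) n with hac | hac | hac
    · right
      have hμ : v (x1 * x2 - γ) = n := by
        rw [hn]; exact v.map_sub_eq_of_lt_right (by rw [hx12]; exact hac)
      rw [hμ] at hMv
      rw [hca, ← sq]; exact hMv
    · exfalso
      have hμ : v (x1 * x2 - γ) ≤ n := by
        refine le_trans (v.map_sub _ _) (max_le ?_ le_rfl)
        rw [hx12, hac]
      have hM' : R2 * a ^ 2 ≤ n ^ 2 := by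
        rw [hMv]; exact pow_le_pow_left₀ zero_le hμ 2
      have h4 : R2 ≤ n := by
        have h5 : R2 * a ^ 2 ≤ n * a ^ 2 := by
          calc R2 * a ^ 2 ≤ n ^ 2 := hM'
            _ = n * a ^ 2 := by rw [sq n, sq a]; nth_rewrite 2 [← hac]; rw [hca]
        exact le_of_mul_le_mul_right h5 (pow_pos ha0 2)
      exact absurd wr2 (not_lt.mpr h4)
    · left
      have hμ : v (x1 * x2 - γ) = a * c := by
        rw [← hx12]; exact v.map_sub_eq_of_lt_left (by rw [hx12]; exact hac)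
      rw [hμ, hca] at hMv
      have : R2 * a ^ 2 = a * a * a ^ 2 := by rw [hMv, sq, sq]
      rw [hca]
      exact mul_right_cancel₀ (pow_ne_zero 2 ha0.ne') this

/-- pair rule for `v x2 ≤ v x1`. -/
theorem pair_rule_aux {b γ x1 x2 r1 r2 : K} (h2 : v 2 < 1) (hb : v b = 1) (hγ1 : v γ < 1)
    (hγ0 : γ ≠ 0) (hne : x1 ≠ x2)
    (hM : r1 * r2 * (x1 - x2) ^ 2 = (x1 * x2 - γ) ^ 2)
    (hS : (r1 + r2) * (x1 - x2) ^ 2 = 2 * (x1 + x2) * (x1 * x2 + γ) + b * (x1 * x2))
    (w1 : v γ < v x1) (w1' : v x1 ≤ 1) (w2 : v γ < v x2)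
    (wr1 : v γ < v r1) (wr1' : v r1 ≤ 1) (wr2 : v γ < v r2) (wr2' : v r2 ≤ 1)
    (hab : v x2 ≤ v x1) :
    RuleConcl (v γ) (v x1) (v x2) (v r1) (v r2) := by
  rcases le_total (v r2) (v r1) with hr | hr
  · obtain ⟨ht, hs⟩ := pair_core v h2 hb hγ1 hγ0 hne hM hS w1 w1' w2 wr1' wr2 wr2' hab hr
    exact ⟨v r2, v r1, Or.inr ⟨rfl, rfl⟩, hs, Or.inr ht⟩
  · have hM' : r2 * r1 * (x1 - x2) ^ 2 = (x1 * x2 - γ) ^ 2 := by rw [← hM]; ring
    have hS' : (r2 + r1) * (x1 - x2) ^ 2 = 2 * (x1 + x2) * (x1 * x2 + γ) + b * (x1 * x2) := by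
      rw [← hS]; ring
    obtain ⟨ht, hs⟩ := pair_core v h2 hb hγ1 hγ0 hne hM' hS' w1 w1' w2 wr2' wr1 wr1' hab hr
    exact ⟨v r1, v r2, Or.inl ⟨rfl, rfl⟩, hs, Or.inr ht⟩

/-- pair rule. -/
theorem pair_rule' {b γ x1 x2 r1 r2 : K} (h2 : v 2 < 1) (hb : v b = 1) (hγ1 : v γ < 1)
    (hγ0 : γ ≠ 0) (hne : x1 ≠ x2)
    (hM : r1 * r2 * (x1 - x2) ^ 2 = (x1 * x2 - γ) ^ 2)
    (hS : (r1 + r2) * (x1 - x2) ^ 2 = 2 * (x1 + x2) * (x1 * x2 + γ) + b * (x1 * x2))
    (w1 : v γ < v x1) (w1' : v x1 ≤ 1) (w2 : v γ < v x2) (w2' : v x2 ≤ 1)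
    (wr1 : v γ < v r1) (wr1' : v r1 ≤ 1) (wr2 : v γ < v r2) (wr2' : v r2 ≤ 1) :
    RuleConcl (v γ) (v x1) (v x2) (v r1) (v r2) := by
  rcases le_total (v x2) (v x1) with hab | hab
  · exact pair_rule_aux v h2 hb hγ1 hγ0 hne hM hS w1 w1' w2 wr1 wr1' wr2 wr2' hab
  · have hM' : r1 * r2 * (x2 - x1) ^ 2 = (x2 * x1 - γ) ^ 2 := by linear_combination hM
    have hS' : (r1 + r2) * (x2 - x1) ^ 2 =
        2 * (x2 + x1) * (x2 * x1 + γ) + b * (x2 * x1) := by linear_combination hS
    exact (pair_rule_aux v h2 hb hγ1 hγ0 (Ne.symm hne) hM' hS' w2 w2' w1 wr1 wr1' wr2 wr2'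
      hab).swap

/-- doubling rule. -/
theorem dbl_core {b γ x r : K} (h4 : v 4 < 1) (hb : v b = 1) (hγ0 : γ ≠ 0)
    (hr : r * (x * (4 * x ^ 2 + b * x + 4 * γ)) = (x ^ 2 - γ) ^ 2)
    (w : v γ < v x) (w' : v x ≤ 1) (wr : v γ < v r) :
    v r = v x * v x ∨ v r * (v x * v x) = v γ ^ 2 := by
  have hn0 : 0 < v γ := zero_lt_iff.mpr ((Valuation.ne_zero_iff v).mpr hγ0)
  have ha0 : 0 < v x := lt_trans hn0 w
  have hbx : v (b * x) = v x := by rw [map_mul, hb, one_mul]
  have h4x : v (4 * x ^ 2) < v x := by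
    rw [map_mul, map_pow, sq]
    calc v 4 * (v x * v x) ≤ v 4 * (1 * v x) := mul_le_mul' le_rfl (mul_le_mul' w' le_rfl)
      _ = v 4 * v x := by rw [one_mul]
      _ < 1 * v x := mul_lt_mul_of_pos_right h4 ha0
      _ = v x := one_mul _
  have h4γ : v (4 * γ) < v x := by
    rw [map_mul]
    calc v 4 * v γ ≤ 1 * v γ := mul_le_mul' h4.le le_rfl
      _ = v γ := one_mul _
      _ < v x := w
  have hq : v (4 * x ^ 2 + b * x + 4 * γ) = v x := by
    have h3 : v (4 * x ^ 2 + b * x) = v x := by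
      rw [v.map_add_eq_of_lt_right (by rw [hbx]; exact h4x), hbx]
    rw [v.map_add_eq_of_lt_left (by rw [h3]; exact h4γ), h3]
  have hrv : v r * (v x * v x) = v (x ^ 2 - γ) ^ 2 := by
    rw [← map_pow, ← hr, map_mul, map_mul, hq]
  have hx2 : v (x ^ 2) = v x * v x := by rw [map_pow, sq]
  rcases lt_trichotomy (v x * v x) (v γ) with h | h | h
  · right
    have hu : v (x ^ 2 - γ) = v γ := v.map_sub_eq_of_lt_right (by rw [hx2]; exact h)
    rw [hrv, hu]
  · exfalso
    have hu : v (x ^ 2 - γ) ≤ v γ := by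
      refine le_trans (v.map_sub _ _) (max_le ?_ le_rfl)
      rw [hx2, h]
    have h1 : v r * (v x * v x) ≤ v γ * (v x * v x) := by
      rw [hrv]
      calc v (x ^ 2 - γ) ^ 2 ≤ v γ ^ 2 := pow_le_pow_left₀ zero_le hu 2
        _ = v γ * (v x * v x) := by rw [h, sq]
    have h2 : v r ≤ v γ := le_of_mul_le_mul_right h1 (mul_pos ha0 ha0)
    exact absurd wr (not_lt.mpr h2)
  · left
    have hu : v (x ^ 2 - γ) = v x * v x := by
      rw [← hx2]; exact v.map_sub_eq_of_lt_left (by rw [hx2]; exact h)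
    rw [hu] at hrv
    have : v r * (v x * v x) = (v x * v x) * (v x * v x) := by rw [hrv, sq]
    exact mul_right_cancel₀ (mul_pos ha0 ha0).ne' this

end core

section main

variable {G K Γ₀ : Type*} [AddCommGroup G] [Field K] [LinearOrderedCommGroupWithZero Γ₀]

open Classical in
/-- valuation of the `x`-coordinate of a point (`1` at the origin) -/
noncomputable def xval (D : KummerData G K) (v : Valuation K Γ₀) (P : G) : Γ₀ :=
  if P = 0 then 1 else v (D.x P)

variable {D : KummerData G K} {v : Valuation K Γ₀} {p : ℕ}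

theorem xval_zero : xval D v 0 = 1 := if_pos rfl

theorem xval_of_ne {P : G} (h : P ≠ 0) : xval D v P = v (D.x P) := if_neg h

theorem xval_neg (P : G) : xval D v (-P) = xval D v P := by
  by_cases h : P = 0
  · subst h; rw [neg_zero]
  · rw [xval_of_ne h, xval_of_ne (neg_ne_zero.mpr h), D.x_neg]

namespace TwoAdic

theorem xval_pos (H : TwoAdic D v p) {P : G} (hP : p • P = 0) : 0 < xval D v P := by
  by_cases h : P = 0
  · subst h; rw [xval_zero]; exact zero_lt_one
  · rw [xval_of_ne h]; exact lt_trans H.hγpos (H.gamma_lt h hP)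

theorem xval_le_one (H : TwoAdic D v p) {P : G} (hP : p • P = 0) : xval D v P ≤ 1 := by
  by_cases h : P = 0
  · subst h; rw [xval_zero]
  · rw [xval_of_ne h]; exact H.le_one h hP

theorem dbl_xval (H : TwoAdic D v p) {P : G} (hP0 : P ≠ 0) (hP : p • P = 0) :
    xval D v (P + P) = xval D v P * xval D v P ∨
      xval D v (P + P) * (xval D v P * xval D v P) = v D.γ ^ 2 := by
  have hPP : P + P ≠ 0 := two_nsmul_ne_zero H.hp H.hp2 hP0 hP
  rw [xval_of_ne hPP, xval_of_ne hP0]
  exact dbl_core v H.h4 H.hb H.hγ0 (dblx D hP0 hPP) (H.gamma_lt hP0 hP) (H.le_one hP0 hP)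
    (H.gamma_lt hPP (add_tors hP hP))

/-- The addition rule for valuations of `x`-coordinates of `p`-torsion points. -/
theorem rule (H : TwoAdic D v p) {P Q : G} (hP : p • P = 0) (hQ : p • Q = 0) :
    RuleConcl (v D.γ) (xval D v P) (xval D v Q) (xval D v (P + Q)) (xval D v (P - Q)) := by
  by_cases hP0 : P = 0
  · subst hP0
    refine ⟨xval D v Q, xval D v Q, Or.inl ⟨by rw [zero_add], by rw [zero_sub, xval_neg]⟩,
      Or.inl ?_, Or.inr ?_⟩
    · rw [xval_zero, one_mul]
    · rw [xval_zero, mul_one]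
  by_cases hQ0 : Q = 0
  · subst hQ0
    refine ⟨xval D v P, xval D v P, Or.inl ⟨by rw [add_zero], by rw [sub_zero]⟩,
      Or.inl ?_, Or.inl ?_⟩
    · rw [xval_zero, mul_one]
    · rw [xval_zero, mul_one]
  by_cases hx : D.x P = D.x Q
  · rcases D.eq_or_eq_neg_of_x_eq hP0 hQ0 hx with h | h
    · subst h
      exact ⟨xval D v (P + P), 1, Or.inl ⟨rfl, by rw [sub_self, xval_zero]⟩,
        H.dbl_xval hP0 hP, Or.inl (one_mul _)⟩
    · subst h
      refine ⟨xval D v (Q + Q), 1, Or.inr ⟨by rw [neg_add_cancel, xval_zero], ?_⟩, ?_,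
        Or.inl ?_⟩
      · have : -Q - Q = -(Q + Q) := by abel
        rw [this, xval_neg]
      · rw [xval_neg]; exact H.dbl_xval hQ0 hQ
      · rw [xval_neg, one_mul]
  · have hadd : P + Q ≠ 0 := by
      intro h
      have : P = -Q := add_eq_zero_iff_eq_neg.mp h
      exact hx (by rw [this, D.x_neg])
    have hsub : P - Q ≠ 0 := by
      intro h
      have : P = Q := sub_eq_zero.mp h
      exact hx (by rw [this])
    rw [xval_of_ne hP0, xval_of_ne hQ0, xval_of_ne hadd, xval_of_ne hsub]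
    exact pair_rule' v H.h2 H.hb H.hγ1 H.hγ0 hx (D.prod_x hP0 hQ0 hx) (sumx D hP0 hQ0 hx)
      (H.gamma_lt hP0 hP) (H.le_one hP0 hP) (H.gamma_lt hQ0 hQ) (H.le_one hQ0 hQ)
      (H.gamma_lt hadd (add_tors hP hQ)) (H.le_one hadd (add_tors hP hQ))
      (H.gamma_lt hsub (sub_tors hP hQ)) (H.le_one hsub (sub_tors hP hQ))

/-- The addition rule in the quotient by powers of `n ^ 2`, up to inversion. -/
theorem rule_cls (H : TwoAdic D v p) (hn : v D.γ ≠ 0) {P Q : G} (hP : p • P = 0)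
    (hQ : p • Q = 0) :
    (InvRel (cls (v D.γ) hn (xval D v (P + Q)))
        (cls (v D.γ) hn (xval D v P) * cls (v D.γ) hn (xval D v Q)) ∧
      InvRel (cls (v D.γ) hn (xval D v (P - Q)))
        (cls (v D.γ) hn (xval D v P) * (cls (v D.γ) hn (xval D v Q))⁻¹)) ∨
    (InvRel (cls (v D.γ) hn (xval D v (P + Q)))
        (cls (v D.γ) hn (xval D v P) * (cls (v D.γ) hn (xval D v Q))⁻¹) ∧
      InvRel (cls (v D.γ) hn (xval D v (P - Q)))
        (cls (v D.γ) hn (xval D v P) * cls (v D.γ) hn (xval D v Q))) := by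
  obtain ⟨s, t, hst, hs, ht⟩ := H.rule hP hQ
  have hP0 : xval D v P ≠ 0 := (H.xval_pos hP).ne'
  have hQ0 : xval D v Q ≠ 0 := (H.xval_pos hQ).ne'
  have hadd0 : xval D v (P + Q) ≠ 0 := (H.xval_pos (add_tors hP hQ)).ne'
  have hsub0 : xval D v (P - Q) ≠ 0 := (H.xval_pos (sub_tors hP hQ)).ne'
  have hs0 : s ≠ 0 := by
    rcases hst with ⟨h, _⟩ | ⟨_, h⟩
    · rw [← h]; exact hadd0
    · rw [← h]; exact hsub0
  have ht0 : t ≠ 0 := by
    rcases hst with ⟨_, h⟩ | ⟨h, _⟩
    · rw [← h]; exact hsub0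
    · rw [← h]; exact hadd0
  have hs' : InvRel (cls (v D.γ) hn s)
      (cls (v D.γ) hn (xval D v P) * cls (v D.γ) hn (xval D v Q)) := by
    rcases hs with h | h
    · left; rw [h, cls_mul _ hn hP0 hQ0]
    · right
      have h1 := congrArg (cls (v D.γ) hn) h
      rw [cls_mul _ hn hs0 (mul_ne_zero hP0 hQ0), cls_mul _ hn hP0 hQ0, cls_sq] at h1
      exact eq_inv_of_mul_eq_one_left h1
  have ht' : InvRel (cls (v D.γ) hn t)
      (cls (v D.γ) hn (xval D v P) * (cls (v D.γ) hn (xval D v Q))⁻¹) := by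
    rcases ht with h | h
    · left
      have h1 := congrArg (cls (v D.γ) hn) h
      rw [cls_mul _ hn ht0 hQ0] at h1
      exact eq_mul_inv_of_mul_eq h1
    · right
      have h1 := congrArg (cls (v D.γ) hn) h
      rw [cls_mul _ hn ht0 hP0] at h1
      rw [mul_inv_rev, inv_inv]
      exact eq_mul_inv_of_mul_eq h1
  rcases hst with ⟨h1, h2'⟩ | ⟨h1, h2'⟩
  · left; rw [h1, h2']; exact ⟨hs', ht'⟩
  · right; rw [h1, h2']; exact ⟨ht', hs'⟩

/-- Multiples of a torsion point: the class of the valuation of `j • T` is the `j`-th power of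
the class of `T`, up to inversion. -/
theorem cls_nsmul (H : TwoAdic D v p) (hn : v D.γ ≠ 0) {T : G} (hT : p • T = 0) (j : ℕ) :
    InvRel (cls (v D.γ) hn (xval D v (j • T))) (cls (v D.γ) hn (xval D v T) ^ j) ∧
      InvRel (cls (v D.γ) hn (xval D v ((j + 1) • T)))
        (cls (v D.γ) hn (xval D v T) ^ (j + 1)) := by
  induction j with
  | zero =>
    refine ⟨?_, ?_⟩
    · rw [zero_smul, xval_zero, cls_one, pow_zero]; exact InvRel.refl _
    · rw [zero_add, one_smul, pow_one]; exact InvRel.refl _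
  | succ j ih =>
    obtain ⟨ih0, ih1⟩ := ih
    refine ⟨ih1, ?_⟩
    set g := cls (v D.γ) hn (xval D v T) with hg
    have hadd : (j + 1) • T + T = (j + 1 + 1) • T := (succ_nsmul T (j + 1)).symm
    have hsub : (j + 1) • T - T = j • T := by rw [succ_nsmul, add_sub_cancel_right]
    have hr := H.rule_cls hn (nsmul_tors hT (j + 1)) hT
    rw [hadd, hsub, ← hg] at hr
    have e1 : g ^ (j + 1) * g = g ^ (j + 1 + 1) := (pow_succ g (j + 1)).symm
    have e2 : g ^ (j + 1) * g⁻¹ = g ^ j := by rw [pow_succ, mul_inv_cancel_right]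
    have e3 : (g ^ (j + 1))⁻¹ * g = (g ^ j)⁻¹ := by
      rw [pow_succ, mul_inv_rev, mul_comm g⁻¹, inv_mul_cancel_right]
    have e4 : (g ^ (j + 1))⁻¹ * g⁻¹ = (g ^ (j + 1 + 1))⁻¹ := by
      rw [pow_succ g (j + 1), mul_inv_rev, mul_comm]
    rcases hr with ⟨hA1, hA2⟩ | ⟨hB1, hB2⟩
    · rcases ih1 with e | e
      · rw [e, e1] at hA1; exact hA1
      · rw [e, e3] at hA1
        rw [e, e4] at hA2
        have h1 : InvRel (g ^ j) (g ^ (j + 1 + 1)) :=
          ih0.symm.trans (hA2.trans (InvRel.inv_left _))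
        exact (hA1.trans (InvRel.inv_left _)).trans h1
    · rcases ih1 with e | e
      · rw [e, e2] at hB1
        rw [e, e1] at hB2
        exact hB1.trans (ih0.symm.trans hB2)
      · rw [e, e4] at hB1
        exact hB1.trans (InvRel.inv_left _)

/-- **Valuations of torsion points at `2`.**  A nonzero `p`-torsion point `T` whose
`x`-coordinate lies in the maximal ideal satisfies `v(x T)^p = v(γ)^(2 i)` with `0 < 2 i < p`. -/
theorem torsion_val (H : TwoAdic D v p) {T : G} (hT0 : T ≠ 0) (hT : p • T = 0)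
    (hx : v (D.x T) < 1) : ∃ i : ℕ, v (D.x T) ^ p = v D.γ ^ (2 * i) ∧ 0 < i ∧ 2 * i < p := by
  have hn : v D.γ ≠ 0 := (Valuation.ne_zero_iff v).mpr H.hγ0
  have hn0 : 0 < v D.γ := zero_lt_iff.mpr hn
  have hn20 : 0 < v D.γ ^ 2 := pow_pos hn0 2
  have hn21 : v D.γ ^ 2 < 1 := pow_lt_one₀ zero_le H.hγ1 (by norm_num)
  have hcl := (H.cls_nsmul hn hT p).1
  rw [hT, xval_zero, cls_one] at hcl
  have hT0' : xval D v T ≠ 0 := (H.xval_pos hT).ne'
  have hone : cls (v D.γ) hn (xval D v T ^ p) = 1 := by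
    rw [cls_pow _ hn hT0']
    rcases hcl with h | h
    · exact h.symm
    · exact inv_eq_one.mp h.symm
  obtain ⟨k, hk⟩ := exists_zpow_of_cls_eq_one _ hn (pow_ne_zero p hT0') hone
  have hp1 : p ≠ 0 := H.hp.ne_zero
  rw [xval_of_ne hT0] at hk
  have hxγ : v D.γ < v (D.x T) := H.gamma_lt hT0 hT
  have hlt : v (D.x T) ^ p < 1 := pow_lt_one₀ zero_le hx hp1
  have hk0 : 0 < k := by
    rw [hk] at hlt
    exact (zpow_lt_one_iff_right_of_lt_one₀ hn20 hn21).mp hlt
  have hgt : v D.γ ^ p < v (D.x T) ^ p := pow_lt_pow_left₀ hxγ zero_le hp1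
  have hkp : 2 * k < (p : ℤ) := by
    rw [hk, ← zpow_natCast (v D.γ) p, ← zpow_natCast (v D.γ) 2, ← zpow_mul] at hgt
    exact (zpow_lt_zpow_iff_right_of_lt_one₀ hn0 H.hγ1).mp hgt
  refine ⟨k.toNat, ?_, by omega, by omega⟩
  rw [hk, pow_mul, ← zpow_natCast (v D.γ ^ 2) k.toNat, Int.toNat_of_nonneg hk0.le]

end TwoAdic

end main

end Fermat.Agent.S13.LocalTwo
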