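import Mathlib
import Fermat.Agent.S13.LocalTwo.Rule

set_option autoImplicit false

/-!
# `S13`, local analysis at `2`, layer 4: inertia acts unipotently on the `p`-torsion

Abstract form.  `D` is the model `y² = x³ + βx² + γx` of a curve whose minimal model at `2` is
`Y² + XY = X³ + a₂X² + a₄X` (`y = Y + X/2`, `β = a₂ + 1/4`, `γ = a₄`), with multiplicative
reduction.  An automorphism `τ` of the group of points covering a field automorphism `σ` which
acts trivially on the residue field and preserves the valuation satisfies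
`τ (τ T - T) = τ T - T` on the `p`-torsion.
-/

namespace Fermat.Agent.S13.LocalTwo

open Fermat.Agent.S05 Fermat.Agent.S05.ValNode

section
variable {G K Γ₀ : Type*} [AddCommGroup G] [Field K] [LinearOrderedCommGroupWithZero Γ₀]

/-- an automorphism of the group of points covering an "inertial" field automorphism -/
structure InertiaData (D : KummerData G K) (v : Valuation K Γ₀) (τ : G →+ G) (σ : K →+* K) :
    Prop where
  hx : ∀ P : G, P ≠ 0 → D.x (τ P) = σ (D.x P)
  hy : ∀ P : G, P ≠ 0 → D.y (τ P) = σ (D.y P)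
  h0 : ∀ P : G, τ P = 0 → P = 0
  h1 : ∀ a : K, v a ≤ 1 → v (σ a - a) < 1
  hv : ∀ a : K, v (σ a) = v a

variable {D : KummerData G K} {v : Valuation K Γ₀} {p : ℕ} {τ : G →+ G} {σ : K →+* K}

namespace TwoAdic

lemma two_ne_zero' (H : TwoAdic D v p) : (2 : K) ≠ 0 := by
  intro h
  have h4 : (4 : K) = 0 := by
    have : (4 : K) = 2 * 2 := by norm_num
    rw [this, h, mul_zero]
  have := H.hb
  rw [h4, zero_mul, map_zero] at this
  exact zero_ne_one this

lemma tors_map (τ : G →+ G) {T : G} (hT : p • T = 0) : p • τ T = 0 := by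
  rw [← map_nsmul, hT, map_zero]

/-- (N) an inertial automorphism does not negate a nonzero `p`-torsion point -/
theorem tau_ne_neg (H : TwoAdic D v p) (ha2 : v ((4 * D.β - 1) / 4) ≤ 1)
    (I : InertiaData D v τ σ) {T : G} (hT0 : T ≠ 0) (hT : p • T = 0) : τ T ≠ -T := by
  intro h
  have hx : σ (D.x T) = D.x T := by rw [← I.hx T hT0, h, D.x_neg]
  have hy : σ (D.y T) = -D.y T := by rw [← I.hy T hT0, h, D.y_neg]
  have h20 : (2 : K) ≠ 0 := H.two_ne_zero'
  have hγx : v D.γ < v (D.x T) := H.gamma_lt hT0 hT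
  have hxpos : 0 < v (D.x T) := lt_trans H.hγpos hγx
  have hx0 : D.x T ≠ 0 := (Valuation.ne_zero_iff v).mp hxpos.ne'
  have hx1 : v (D.x T) ≤ 1 := H.le_one hT0 hT
  obtain ⟨z, hz⟩ : ∃ z : K, z = D.y T / D.x T - 1 / 2 := ⟨_, rfl⟩
  have hzz : z ^ 2 + z = D.x T + (4 * D.β - 1) / 4 + D.γ / D.x T := by
    have e := D.eqn T hT0
    have h40 : (4 : K) ≠ 0 := by
      have : (4 : K) = 2 * 2 := by norm_num
      rw [this]; exact mul_ne_zero h20 h20
    rw [hz]
    field_simp
    linear_combination 16 * e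
  have hγx' : v (D.γ / D.x T) ≤ 1 := by
    rw [map_div₀]
    exact (div_le_one₀ hxpos).mpr hγx.le
  have hrhs : v (z ^ 2 + z) ≤ 1 := by
    rw [hzz]
    exact v.map_add_le (v.map_add_le hx1 ha2) hγx'
  have hzint : v z ≤ 1 := by
    by_contra hc
    rw [not_le] at hc
    have hlt : v z < v (z ^ 2) := by
      rw [map_pow, sq]
      calc v z = v z * 1 := (mul_one _).symm
        _ < v z * v z := mul_lt_mul_of_pos_left hc (lt_trans zero_lt_one hc)
    have h1 : v (z ^ 2 + z) = v (z ^ 2) := v.map_add_eq_of_lt_left hlt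
    rw [h1] at hrhs
    exact absurd (lt_trans hc hlt) (not_lt.mpr hrhs)
  have hσz : σ z - z = -(2 * z + 1) := by
    rw [hz, map_sub, map_div₀, map_div₀, hx, hy, map_one, map_ofNat]
    field_simp
    ring
  have h2z : v (2 * z) < 1 := by
    rw [map_mul]
    calc v 2 * v z ≤ v 2 * 1 := mul_le_mul' le_rfl hzint
      _ = v 2 := mul_one _
      _ < 1 := H.h2
  have hunit : v (2 * z + 1) = 1 := by
    rw [v.map_add_eq_of_lt_right (by rw [map_one]; exact h2z), map_one]
  have hcon := I.h1 z hzint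
  rw [hσz, Valuation.map_neg, hunit] at hcon
  exact lt_irrefl _ hcon

/-- (U2) an inertial automorphism fixes the `p`-torsion points with unit `x`-coordinate -/
theorem tau_eq_of_unit (H : TwoAdic D v p) (ha2 : v ((4 * D.β - 1) / 4) ≤ 1)
    (I : InertiaData D v τ σ) {T : G} (hT0 : T ≠ 0) (hT : p • T = 0)
    (hx1 : v (D.x T) = 1) : τ T = T := by
  have hτT0 : τ T ≠ 0 := fun h => hT0 (I.h0 T h)
  have hτT : p • τ T = 0 := tors_map τ hT
  by_cases hxx : D.x (τ T) = D.x T
  · rcases D.eq_or_eq_neg_of_x_eq hτT0 hT0 hxx with h | h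
    · exact h
    · exact absurd h (H.tau_ne_neg ha2 I hT0 hT)
  · exfalso
    have hadd : τ T + T ≠ 0 := by
      intro h
      have : τ T = -T := add_eq_zero_iff_eq_neg.mp h
      exact hxx (by rw [this, D.x_neg])
    have hsub : τ T - T ≠ 0 := by
      intro h
      have : τ T = T := sub_eq_zero.mp h
      exact hxx (by rw [this])
    have hpr := D.prod_x hτT0 hT0 hxx
    have h1 : v (D.x (τ T)) = 1 := by rw [I.hx T hT0, I.hv, hx1]
    have hμ : v (D.x (τ T) * D.x T - D.γ) = 1 := by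
      have : v (D.x (τ T) * D.x T) = 1 := by rw [map_mul, h1, hx1, one_mul]
      rw [v.map_sub_eq_of_lt_left (by rw [this]; exact H.hγ1), this]
    have hδ : v (D.x (τ T) - D.x T) < 1 := by
      rw [I.hx T hT0]; exact I.h1 _ hx1.le
    have ha : v (D.x (τ T + T)) ≤ 1 := H.le_one hadd (add_tors hτT hT)
    have hb : v (D.x (τ T - T)) ≤ 1 := H.le_one hsub (sub_tors hτT hT)
    have h5 := congrArg v hpr
    rw [map_mul, map_mul, map_pow, map_pow, hμ, one_pow] at h5
    have hδ2 : v (D.x (τ T) - D.x T) ^ 2 < 1 := pow_lt_one₀ zero_le hδ (by norm_num)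
    have h6 : v (D.x (τ T + T)) * v (D.x (τ T - T)) * v (D.x (τ T) - D.x T) ^ 2 ≤
        1 * 1 * v (D.x (τ T) - D.x T) ^ 2 := mul_le_mul' (mul_le_mul' ha hb) le_rfl
    rw [h5, one_mul, one_mul] at h6
    exact absurd hδ2 (not_lt.mpr h6)

/-- **Inertia at `2` acts unipotently on the `p`-torsion** (abstract form). -/
theorem tau_unipotent (H : TwoAdic D v p) (ha2 : v ((4 * D.β - 1) / 4) ≤ 1)
    (I : InertiaData D v τ σ) {T : G} (hT : p • T = 0) : τ (τ T - T) = τ T - T := by
  by_cases hT0 : T = 0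
  · subst hT0; simp
  by_cases hfix : τ T = T
  · rw [hfix, sub_self, map_zero]
  have hτT0 : τ T ≠ 0 := fun h => hT0 (I.h0 T h)
  have hτT : p • τ T = 0 := tors_map τ hT
  have hneg : τ T ≠ -T := H.tau_ne_neg ha2 I hT0 hT
  have hadd : τ T + T ≠ 0 := fun h => hneg (add_eq_zero_iff_eq_neg.mp h)
  have hsub : τ T - T ≠ 0 := fun h => hfix (sub_eq_zero.mp h)
  have haddT : p • (τ T + T) = 0 := add_tors hτT hT
  have hsubT : p • (τ T - T) = 0 := sub_tors hτT hT
  obtain ⟨s, t, hst, -, ht⟩ := H.rule hτT hT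
  rw [xval_of_ne hτT0, xval_of_ne hT0, I.hx T hT0, I.hv] at ht
  rw [xval_of_ne hadd, xval_of_ne hsub] at hst
  have hpos : 0 < v (D.x T) := lt_trans H.hγpos (H.gamma_lt hT0 hT)
  have ht1 : t = 1 := by
    rcases ht with h | h <;> exact mul_right_cancel₀ hpos.ne' (by rw [h, one_mul])
  rcases hst with ⟨-, h2⟩ | ⟨h1, -⟩
  · exact H.tau_eq_of_unit ha2 I hsub hsubT (h2.trans ht1)
  · exfalso
    have hS1 : v (D.x (τ T + T)) = 1 := h1.trans ht1
    have hS : τ (τ T + T) = τ T + T := H.tau_eq_of_unit ha2 I hadd haddT hS1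
    obtain ⟨k0, hk0⟩ : ∃ k0, p = 2 * k0 + 1 := by
      rcases H.hp.eq_two_or_odd' with h | h
      · exact absurd h H.hp2
      · exact h
    have hT' : p • (T - (k0 + 1) • (τ T + T)) = 0 := sub_tors hT (nsmul_tors haddT _)
    have hτT' : τ (T - (k0 + 1) • (τ T + T)) = -(T - (k0 + 1) • (τ T + T)) := by
      rw [map_sub, map_nsmul, hS]
      have h2 : (2 * (k0 + 1)) • (τ T + T) = τ T + T := by
        have : 2 * (k0 + 1) = p + 1 := by omega
        rw [this, succ_nsmul, haddT, zero_add]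
      rw [mul_comm, mul_nsmul, two_nsmul] at h2
      rw [eq_neg_iff_add_eq_zero]
      have e : τ T - (k0 + 1) • (τ T + T) + (T - (k0 + 1) • (τ T + T)) =
          τ T + T - ((k0 + 1) • (τ T + T) + (k0 + 1) • (τ T + T)) := by abel
      rw [e, h2, sub_self]
    have hT'0 : T - (k0 + 1) • (τ T + T) = 0 := by
      by_contra h
      exact H.tau_ne_neg ha2 I h hT' hτT'
    have hTeq : T = (k0 + 1) • (τ T + T) := sub_eq_zero.mp hT'0
    rcases H.val_nsmul_eq_one hadd haddT hS1 (k0 + 1) with h0 | h0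
    · rw [← hTeq] at h0; exact hT0 h0
    · rw [← hTeq] at h0; exact hfix (H.tau_eq_of_unit ha2 I hT0 hT h0)

end TwoAdic

end

end Fermat.Agent.S13.LocalTwo
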