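import Mathlib
import Fermat.Agent.S13.LocalTwo.Rule

set_option autoImplicit false

/-!
# `S13`, local analysis at `2`, layer 5: no "rational" `p`-torsion

Abstract form.  A nonzero `p`-torsion point `T` (`p ≥ 5`) cannot have the following two
properties of points with rational coordinates: the valuations of the `x (k • T)` are never
`p`-th roots of `v(γ)^(2i)` with `0 < 2i < p`, and the units among the `x (k • T)` are `≡ 1`.
-/

namespace Fermat.Agent.S13.LocalTwo

open Fermat.Agent.S05 Fermat.Agent.S05.ValNode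

section
variable {G K Γ₀ : Type*} [AddCommGroup G] [Field K] [LinearOrderedCommGroupWithZero Γ₀]
variable {D : KummerData G K} {v : Valuation K Γ₀} {p : ℕ}

namespace TwoAdic

/-- **No rational `p`-torsion at `2`** (abstract form). -/
theorem no_rational (H : TwoAdic D v p) (hp5 : 5 ≤ p) {T : G} (hT0 : T ≠ 0) (hT : p • T = 0)
    (ha : ∀ k : ℕ, k • T ≠ 0 → ∀ i : ℕ, 0 < i → 2 * i < p →
      v (D.x (k • T)) ^ p ≠ v D.γ ^ (2 * i))
    (hb : ∀ k : ℕ, k • T ≠ 0 → v (D.x (k • T)) = 1 → v (D.x (k • T) - 1) < 1) : False := by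
  have h1T : 1 • T ≠ 0 := by rwa [one_smul]
  have h2T : 2 • T ≠ 0 := nsmul_ne_zero_of_lt H.hp hT0 hT (k := 2) (by norm_num) (by omega)
  have h3T : 3 • T ≠ 0 := nsmul_ne_zero_of_lt H.hp hT0 hT (k := 3) (by norm_num) (by omega)
  have unit : ∀ k : ℕ, k • T ≠ 0 → v (D.x (k • T)) = 1 := by
    intro k hk
    by_contra hne
    have hlt : v (D.x (k • T)) < 1 := lt_of_le_of_ne (H.le_one hk (nsmul_tors hT k)) hne
    obtain ⟨i, hi, hi0, hip⟩ := H.torsion_val hk (nsmul_tors hT k) hlt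
    exact ha k hk i hi0 hip hi
  have hx1 := unit 1 h1T
  have hx2 := unit 2 h2T
  have hc1 := hb 1 h1T hx1
  have hc2 := hb 2 h2T hx2
  have hxx : D.x (2 • T) ≠ D.x (1 • T) := by
    intro h
    rcases D.eq_or_eq_neg_of_x_eq h2T h1T h with h' | h'
    · rw [two_nsmul, one_smul] at h'
      exact hT0 (add_eq_right.mp h')
    · apply h3T
      rw [show (3 : ℕ) = 2 + 1 from rfl, add_nsmul, h', neg_add_cancel]
  have hpr := D.prod_x h2T h1T hxx
  have hadd : 2 • T + 1 • T = 3 • T := by rw [← add_nsmul]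
  have hsub : 2 • T - 1 • T = 1 • T := by rw [two_nsmul, one_smul, add_sub_cancel_right]
  rw [hadd, hsub] at hpr
  have hμ : v (D.x (2 • T) * D.x (1 • T) - D.γ) = 1 := by
    have : v (D.x (2 • T) * D.x (1 • T)) = 1 := by rw [map_mul, hx2, hx1, one_mul]
    rw [v.map_sub_eq_of_lt_left (by rw [this]; exact H.hγ1), this]
  have hδ : v (D.x (2 • T) - D.x (1 • T)) < 1 := by
    have : D.x (2 • T) - D.x (1 • T) = (D.x (2 • T) - 1) - (D.x (1 • T) - 1) := by ring
    rw [this]; exact lt_of_le_of_lt (v.map_sub _ _) (max_lt hc2 hc1)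
  have h3 : v (D.x (3 • T)) ≤ 1 := H.le_one h3T (nsmul_tors hT 3)
  have h5 := congrArg v hpr
  rw [map_mul, map_mul, map_pow, map_pow, hμ, one_pow, hx1, mul_one] at h5
  have hδ2 : v (D.x (2 • T) - D.x (1 • T)) ^ 2 < 1 := pow_lt_one₀ zero_le hδ (by norm_num)
  have h6 : v (D.x (3 • T)) * v (D.x (2 • T) - D.x (1 • T)) ^ 2 ≤
      1 * v (D.x (2 • T) - D.x (1 • T)) ^ 2 := mul_le_mul' h3 le_rfl
  rw [h5, one_mul] at h6
  exact absurd hδ2 (not_lt.mpr h6)

end TwoAdic

end

end Fermat.Agent.S13.LocalTwo
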