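import Mathlib
import Fermat.Prelude.Def_FLTPrelim_Ramification
import Fermat.Agent.S05.FreyInst
import Fermat.Agent.S05.Glue
import Fermat.Agent.Lib.FrobExists
import Fermat.Agent.S13.TwoDirect.FreyTwo
import Fermat.Agent.S13.LocalTwo.Rational

set_option autoImplicit false

/-!
# `S13`, local analysis at `2`, layer 6: the Frey curve has no rational `p`-torsion

The Kummer data of the Frey curve, rescaled to the minimal model at `2`, satisfies `TwoAdic` at
every place above `2`; a Galois-fixed point has rational `x`-coordinate, and the valuations of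
rational numbers are integral powers of `v 2`, which `TwoAdic.no_rational` excludes.
-/

namespace Fermat.Agent.S13.LocalTwo

open Fermat.Agent.S05
open WeierstrassCurve WeierstrassCurve.Affine WeierstrassCurve.Affine.Point

section rescale
variable {G K : Type*} [AddCommGroup G] [Field K]

/-- rescaling of Kummer data: `x ↦ c² x`, `y ↦ c³ y`, `β ↦ c² β`, `γ ↦ c⁴ γ` -/
def rescale (D : KummerData G K) (c : K) (hc : c ≠ 0) : KummerData G K where
  β := c ^ 2 * D.β
  γ := c ^ 4 * D.γ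
  x := fun P => c ^ 2 * D.x P
  y := fun P => c ^ 3 * D.y P
  eqn := by
    intro P hP
    have e := D.eqn P hP
    linear_combination c ^ 6 * e
  x_neg := by
    intro P
    show c ^ 2 * D.x (-P) = c ^ 2 * D.x P
    rw [D.x_neg]
  y_neg := by
    intro P
    show c ^ 3 * D.y (-P) = -(c ^ 3 * D.y P)
    rw [D.y_neg]; ring
  inj := by
    intro P Q hP hQ hx hy
    have hx' : D.x P = D.x Q := mul_left_cancel₀ (pow_ne_zero 2 hc) hx
    have hy' : D.y P = D.y Q := mul_left_cancel₀ (pow_ne_zero 3 hc) hy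
    exact D.inj P Q hP hQ hx' hy'
  sub_x := by
    intro P Q hP hQ hne
    have hne' : D.x P ≠ D.x Q := fun h => hne (by show c ^ 2 * D.x P = c ^ 2 * D.x Q; rw [h])
    have e := D.sub_x P Q hP hQ hne'
    linear_combination c ^ 6 * e
  dbl_x := by
    intro P hP hy
    have hy' : D.y P ≠ 0 := fun h => hy (by show c ^ 3 * D.y P = 0; rw [h, mul_zero])
    have e := D.dbl_x P hP hy'
    linear_combination c ^ 8 * e

end rescale

section rat

/-- `ℚ̄` is Galois over `ℚ` for the algebra structure found by instance search -/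
theorem isGalois_rat_algClosure : IsGalois ℚ (AlgebraicClosure ℚ) := by
  have h : (DivisionRing.toRatAlgebra : Algebra ℚ (AlgebraicClosure ℚ)) =
      AlgebraicClosure.instAlgebra ℚ := Subsingleton.elim _ _
  rw [h]
  infer_instance

/-- an element of `ℚ̄` fixed by the absolute Galois group is rational -/
theorem exists_rat_of_fixed (x : AlgebraicClosure ℚ)
    (h : ∀ σ : AlgebraicClosure ℚ ≃ₐ[ℚ] AlgebraicClosure ℚ, σ x = x) :
    ∃ q : ℚ, x = algebraMap ℚ (AlgebraicClosure ℚ) q := by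
  have := isGalois_rat_algClosure
  obtain ⟨q, hq⟩ := (InfiniteGalois.mem_range_algebraMap_iff_fixed (k := ℚ) x).mpr h
  exact ⟨q, hq.symm⟩

variable (A : ValuationSubring (AlgebraicClosure ℚ)) (hA : A.LiesOverPrime 2)

include hA in
lemma val_two_lt_one : A.valuation (2 : AlgebraicClosure ℚ) < 1 := by
  have := (A.mem_nonunits_iff).mp hA
  simpa using this

lemma val_two_pos : 0 < A.valuation (2 : AlgebraicClosure ℚ) :=
  zero_lt_iff.mpr ((Valuation.ne_zero_iff _).mpr two_ne_zero)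

include hA in
lemma val_int_eq_pow (n : ℤ) (hn : n ≠ 0) :
    ∃ k : ℕ, A.valuation (n : AlgebraicClosure ℚ) = A.valuation 2 ^ k := by
  have hfin : FiniteMultiplicity (2 : ℤ) n := Int.finiteMultiplicity_iff.mpr ⟨by decide, hn⟩
  obtain ⟨c, hc, hc2⟩ := hfin.exists_eq_pow_mul_and_not_dvd
  refine ⟨multiplicity (2 : ℤ) n, ?_⟩
  have hc1 : A.valuation (c : AlgebraicClosure ℚ) = 1 :=
    (val_intCast_eq_one_iff A Nat.prime_two hA c).mpr (by exact_mod_cast hc2)
  conv_lhs => rw [hc]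
  push_cast
  rw [map_mul, map_pow, hc1, mul_one]

lemma algebraMap_rat_eq (q : ℚ) : algebraMap ℚ (AlgebraicClosure ℚ) q =
    (q.num : AlgebraicClosure ℚ) / ((q.den : ℤ) : AlgebraicClosure ℚ) := by
  rw [eq_ratCast, Rat.cast_def]; push_cast; rfl

include hA in
/-- the valuation of a nonzero rational number is an integral power of `v 2` -/
theorem val_rat_eq_zpow (q : ℚ) (hq : q ≠ 0) :
    ∃ j : ℤ, A.valuation (algebraMap ℚ (AlgebraicClosure ℚ) q) = A.valuation 2 ^ j := by
  obtain ⟨k1, h1⟩ := val_int_eq_pow A hA q.num (Rat.num_ne_zero.mpr hq)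
  obtain ⟨k2, h2⟩ := val_int_eq_pow A hA (q.den : ℤ) (by exact_mod_cast q.den_nz)
  refine ⟨(k1 : ℤ) - k2, ?_⟩
  rw [algebraMap_rat_eq, map_div₀, h1, h2, zpow_sub₀ (val_two_pos A).ne', zpow_natCast,
    zpow_natCast]

include hA in
/-- a rational unit at `2` is `≡ 1` modulo the maximal ideal -/
theorem val_rat_sub_one_lt (q : ℚ)
    (h : A.valuation (algebraMap ℚ (AlgebraicClosure ℚ) q) = 1) :
    A.valuation (algebraMap ℚ (AlgebraicClosure ℚ) q - 1) < 1 := by
  have hd0 : ((q.den : ℤ) : AlgebraicClosure ℚ) ≠ 0 := by exact_mod_cast q.den_nz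
  have hdv0 : A.valuation ((q.den : ℤ) : AlgebraicClosure ℚ) ≠ 0 :=
    (Valuation.ne_zero_iff _).mpr hd0
  have hq' := algebraMap_rat_eq q
  rw [hq', map_div₀, div_eq_one_iff_eq hdv0] at h
  have hone := fun n => val_intCast_eq_one_iff A Nat.prime_two hA n
  have hnd : ¬ ((2 : ℤ) ∣ q.num ∧ (2 : ℤ) ∣ (q.den : ℤ)) := by
    rintro ⟨h1, h2⟩
    have h3 : (2 : ℕ) ∣ q.num.natAbs := Int.natCast_dvd.mp (by exact_mod_cast h1)
    have h4 : (2 : ℕ) ∣ q.den := by exact_mod_cast h2
    have h5 := Nat.dvd_gcd h3 h4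
    rw [q.reduced] at h5
    omega
  have hn1 : A.valuation (q.num : AlgebraicClosure ℚ) = 1 ∧
      A.valuation ((q.den : ℤ) : AlgebraicClosure ℚ) = 1 := by
    by_cases h1 : (2 : ℤ) ∣ q.num
    · have h2 : ¬ (2 : ℤ) ∣ (q.den : ℤ) := fun h2 => hnd ⟨h1, h2⟩
      have h3 := (hone (q.den : ℤ)).mpr (by exact_mod_cast h2)
      exact ⟨h.trans h3, h3⟩
    · have h3 := (hone q.num).mpr (by exact_mod_cast h1)
      exact ⟨h3, h ▸ h3⟩
  have ho1 : ¬ (2 : ℤ) ∣ q.num := by exact_mod_cast (hone _).mp hn1.1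
  have ho2 : ¬ (2 : ℤ) ∣ (q.den : ℤ) := by exact_mod_cast (hone _).mp hn1.2
  have hev : (2 : ℤ) ∣ q.num - (q.den : ℤ) := by omega
  have hlt : A.valuation ((q.num - (q.den : ℤ) : ℤ) : AlgebraicClosure ℚ) < 1 :=
    (Glue.val_intCast_lt_one_iff A Nat.prime_two hA _).mpr (by exact_mod_cast hev)
  have e : algebraMap ℚ (AlgebraicClosure ℚ) q - 1 =
      ((q.num - (q.den : ℤ) : ℤ) : AlgebraicClosure ℚ) /
        ((q.den : ℤ) : AlgebraicClosure ℚ) := by
    rw [hq']; field_simp; push_cast; ring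
  rw [e, map_div₀, hn1.2, div_one]
  exact hlt

end rat

section frey

/-- the Kummer data of the Frey curve over `ℚ̄`, normalised to the minimal model at `2`
(`x = X`, `y = Y + X/2`) -/
noncomputable def freyM (P : FreyPackage) :
    KummerData (P.freyCurve⁄(AlgebraicClosure ℚ)).Point (AlgebraicClosure ℚ) :=
  rescale (TwoDirect.freyD P) (1 / 2) (one_div_ne_zero two_ne_zero)

lemma freyM_x (P : FreyPackage) (T : (P.freyCurve⁄(AlgebraicClosure ℚ)).Point) :
    (freyM P).x T = (TwoDirect.freyD P).x T / 4 := by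
  show (1 / 2 : AlgebraicClosure ℚ) ^ 2 * (TwoDirect.freyD P).x T = _
  ring

lemma freyM_β (P : FreyPackage) : 4 * (freyM P).β = (TwoDirect.freyD P).β := by
  show 4 * ((1 / 2 : AlgebraicClosure ℚ) ^ 2 * (TwoDirect.freyD P).β) = _
  ring

lemma freyM_γ (P : FreyPackage) : (freyM P).γ = TwoDirect.ca4 (TwoDirect.freyD P) := by
  show (1 / 2 : AlgebraicClosure ℚ) ^ 4 * (TwoDirect.freyD P).γ = (TwoDirect.freyD P).γ / 16
  ring

/-- the Frey curve satisfies the `2`-adic hypotheses at every place above `2` -/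
theorem freyTwoAdic (P : FreyPackage) (A : ValuationSubring (AlgebraicClosure ℚ))
    (hA : A.LiesOverPrime 2) : TwoAdic (freyM P) A.valuation P.p := by
  have h2 := val_two_lt_one A hA
  obtain ⟨s, n, hs1, hn, h4⟩ := TwoDirect.exists_a4 P
  have hn1 : A.valuation (n : AlgebraicClosure ℚ) = 1 :=
    (val_intCast_eq_one_iff A Nat.prime_two hA n).mpr (by exact_mod_cast hn)
  have hpos : 0 < P.p * s - 4 := by
    have : 5 * 1 ≤ P.p * s := Nat.mul_le_mul P.hp5 hs1
    omega
  have hp2 : P.p ≠ 2 := by have := P.hp5; omega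
  refine ⟨h2, ?_, ?_, ?_, P.pp, hp2, ?_⟩
  · rw [freyM_β, TwoDirect.freyD_β]
    refine (val_intCast_eq_one_iff A Nat.prime_two hA _).mpr ?_
    intro hdvd
    have hb : (2 : ℤ) ∣ P.b ^ P.p := dvd_pow (TwoDirect.frey_b_even P) P.hp0
    have ha : (2 : ℤ) ∣ P.a ^ P.p := by
      have h3 : (2 : ℤ) ∣ P.b ^ P.p - P.a ^ P.p := by exact_mod_cast hdvd
      have := dvd_sub hb h3
      simpa using this
    exact TwoDirect.frey_a_odd P (Int.prime_two.dvd_of_dvd_pow ha)
  · rw [freyM_γ, h4, map_mul, map_pow, hn1, mul_one]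
    exact pow_lt_one₀ zero_le h2 hpos.ne'
  · rw [freyM_γ, h4]
    refine mul_ne_zero (pow_ne_zero _ two_ne_zero) ?_
    intro h0
    rw [h0] at hn1
    simp at hn1
  · have e : ((P.p : ℤ) : AlgebraicClosure ℚ) = (P.p : AlgebraicClosure ℚ) := by push_cast; rfl
    rw [← e]
    refine (val_intCast_eq_one_iff A Nat.prime_two hA _).mpr ?_
    intro h
    have h3 : (2 : ℕ) ∣ P.p := by exact_mod_cast h
    have := (Nat.prime_dvd_prime_iff_eq Nat.prime_two P.pp).mp h3
    omega

/-- **(T2-ii)** the Frey curve has no nonzero Galois-fixed point killed by `p`. -/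
theorem no_rational_torsion (P : FreyPackage) (T : (P.freyCurve⁄(AlgebraicClosure ℚ)).Point)
    (hT : P.p • T = 0)
    (hfix : ∀ σ : AlgebraicClosure ℚ ≃ₐ[ℚ] AlgebraicClosure ℚ, σ • T = T) : T = 0 := by
  by_contra hT0
  obtain ⟨A, hA⟩ := Fermat.Agent.Lib.FrobExists.exists_liesOverPrime 2 Nat.prime_two
  have H := freyTwoAdic P A hA
  have hrat : ∀ k : ℕ, ∃ q : ℚ,
      (freyM P).x (k • T) = algebraMap ℚ (AlgebraicClosure ℚ) q := by
    intro k
    have hk : ∀ σ : AlgebraicClosure ℚ ≃ₐ[ℚ] AlgebraicClosure ℚ, σ • (k • T) = k • T := by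
      intro σ
      rw [← FreyKummer.galAddHom_apply, map_nsmul, FreyKummer.galAddHom_apply, hfix σ]
    obtain ⟨q, hq⟩ := exists_rat_of_fixed ((TwoDirect.freyD P).x (k • T)) (fun σ => by
      have := FreyInst.kummer_x_smul P two_ne_zero 0 (by ring) σ (k • T)
      rw [hk σ] at this
      exact this.symm)
    refine ⟨q / 4, ?_⟩
    rw [freyM_x, hq, map_div₀, map_ofNat]
  obtain ⟨s, n, hs1, hn, h4⟩ := TwoDirect.exists_a4 P
  have hn1 : A.valuation (n : AlgebraicClosure ℚ) = 1 :=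
    (val_intCast_eq_one_iff A Nat.prime_two hA n).mpr (by exact_mod_cast hn)
  have hg : A.valuation (freyM P).γ = A.valuation 2 ^ (P.p * s - 4) := by
    rw [freyM_γ, h4, map_mul, map_pow, hn1, mul_one]
  have h2 := val_two_lt_one A hA
  have h20 := val_two_pos A
  have hp2 : P.p ≠ 2 := by have := P.hp5; omega
  have h5 : 5 ≤ P.p * s := by
    have : 5 * 1 ≤ P.p * s := Nat.mul_le_mul P.hp5 hs1
    omega
  refine H.no_rational P.hp5 hT0 hT ?_ ?_
  · intro k hk i hi0 hip heq
    obtain ⟨q, hq⟩ := hrat k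
    rw [hq, hg] at heq
    by_cases hq0 : q = 0
    · rw [hq0, _root_.map_zero, _root_.map_zero, zero_pow P.hp0] at heq
      exact (pow_ne_zero _ (pow_ne_zero _ h20.ne')) heq.symm
    obtain ⟨j, hj⟩ := val_rat_eq_zpow A hA q hq0
    rw [hj, ← zpow_natCast, ← zpow_mul, ← pow_mul, ← zpow_natCast] at heq
    have hinj := (zpow_right_inj₀ h20 h2.ne).mp heq
    have hdvd : (P.p : ℤ) ∣ 8 * i := by
      have e : (((P.p * s - 4) * (2 * i) : ℕ) : ℤ) = (P.p : ℤ) * (2 * i * s) - 8 * i := by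
        rw [Nat.cast_mul, Nat.cast_sub (by omega)]; push_cast; ring
      rw [e] at hinj
      exact ⟨2 * i * s - j, by linarith⟩
    have hdvd' : P.p ∣ 8 * i := by exact_mod_cast hdvd
    have hcop : Nat.Coprime P.p 8 := by
      have h' : Nat.Coprime P.p 2 := (Nat.coprime_primes P.pp Nat.prime_two).mpr hp2
      exact Nat.Coprime.pow_right 3 h'
    have h6 := hcop.dvd_of_dvd_mul_left hdvd'
    have h7 := Nat.le_of_dvd hi0 h6
    omega
  · intro k hk h1
    obtain ⟨q, hq⟩ := hrat k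
    rw [hq] at h1 ⊢
    exact val_rat_sub_one_lt A hA q h1

end frey

end Fermat.Agent.S13.LocalTwo
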